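import Fermat.Agent.DedekindHadamard.Criteria
import Fermat.Agent.DedekindPrimeIdeals.Dirichlet

/-!
# The basic inequality of Tsfasman and Vlăduţ for one field

Stark's sum over the zeros is `≥ 0` at a real `σ > 1`; the logarithmic derivative of `ζ_K` there
is `-∑ log N v / (N v ^ σ - 1)`. So for every finite set of norms `q` the places of norm `q` and
the infinite places are bounded by `log √|d| + 1/σ + 1/(σ - 1)`.
-/

set_option autoImplicit false
set_option linter.style.haveILetI false

noncomputable section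

universe u

open NumberField InfinitePlace Module Complex Filter Topology Set IsDedekindDomain Ideal
open FA.HeckeBS FA.DedekindZeroCount FA.DedekindHadamard
open Real (eulerMascheroniConstant)
open scoped Real Classical

namespace FA.TsfasmanVladut

variable (K : Type u) [Field K] [NumberField K]

/-- `g = log √|d|`. -/
def logGenus : ℝ := Real.log (((discr K).natAbs : ℕ) : ℝ) / 2

theorem logGenus_nonneg : 0 ≤ logGenus K := div_nonneg (discLog_nonneg K) zero_le_two

theorem finite_places_norm (q : ℕ) :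
    {v : HeightOneSpectrum (𝓞 K) | absNorm v.asIdeal = q}.Finite :=
  Set.Finite.of_finite_image ((Ideal.finite_setOfPred_absNorm_eq (S := 𝓞 K) q).subset
    (by rintro _ ⟨v, hv, rfl⟩; exact hv)) fun _ _ _ _ h => HeightOneSpectrum.ext h

/-- `N_q`, the number of places of norm `q`. -/
def placeCount (q : ℕ) : ℕ := {v : HeightOneSpectrum (𝓞 K) | absNorm v.asIdeal = q}.ncard

/-- `log q / (q ^ σ - 1)`. -/
def placeWeight (σ : ℝ) (q : ℕ) : ℝ := Real.log q / ((q : ℝ) ^ σ - 1)

theorem placeWeight_nonneg {σ : ℝ} (hσ : 0 ≤ σ) (q : ℕ) : 0 ≤ placeWeight σ q := by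
  rcases Nat.eq_zero_or_pos q with rfl | hq
  · simp [placeWeight]
  exact div_nonneg (Real.log_natCast_nonneg q)
    (sub_nonneg.2 (Real.one_le_rpow (Nat.one_le_cast.2 hq) hσ))

/-- **There are at most `n` places of norm `q`.** -/
theorem placeCount_le (q : ℕ) : placeCount K q ≤ finrank ℚ K := by
  rw [placeCount, Set.ncard_eq_toFinset_card _ (finite_places_norm K q)]
  obtain ⟨T, hT⟩ : ∃ T, T = (finite_places_norm K q).toFinset := ⟨_, rfl⟩
  rw [← hT]
  have hmem : ∀ v ∈ T, absNorm v.asIdeal = q := fun v hv => by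
    rw [hT, Set.Finite.mem_toFinset] at hv
    exact hv
  rcases Finset.eq_empty_or_nonempty T with he | ⟨v₀, hv₀⟩
  · simp [he]
  have hq : 1 < q := by
    rw [hT, Set.Finite.mem_toFinset] at hv₀
    exact hv₀ ▸ NumberField.HeightOneSpectrum.one_lt_absNorm v₀
  have hl : 0 < Real.log q := Real.log_pos (Nat.one_lt_cast.2 hq)
  obtain ⟨i, hi⟩ : ∃ i : {v // v ∈ T} → FA.PrimeIdeal.PowFiber K q, Function.Injective i ∧
      ∀ v, (i v).1.1 = v.1 := by
    refine ⟨fun v => ⟨(v.1, 0), ?_⟩, fun a b h => ?_, fun _ => rfl⟩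
    · simpa using hmem v.1 v.2
    · exact Subtype.ext (congrArg (fun p => p.1.1) h)
  have hs := FA.Hecke.summable_fiberSum (K := K) (w := fun _ => 1) (fun _ => zero_le_one)
    (fun _ => le_rfl) q
  have h1 := hs.sum_le_tsum (T.attach.map ⟨i, hi.1⟩)
    fun p _ => mul_nonneg zero_le_one (Real.log_natCast_nonneg _)
  rw [Finset.sum_map] at h1
  have h2 : ∑ v ∈ T.attach, (1 : ℝ) * Real.log (absNorm (i v).1.1.asIdeal) =
      T.card * Real.log q := by
    rw [Finset.sum_eq_card_nsmul (b := Real.log q) fun v _ => ?_, Finset.card_attach, nsmul_eq_mul]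
    rw [one_mul, hi.2, hmem v.1 v.2]
  have h3 : (T.card : ℝ) * Real.log q ≤ finrank ℚ K * Real.log q := by
    refine h2 ▸ h1.trans ((FA.DedekindPIT.mangoldtK_le K q).trans ?_)
    exact mul_le_mul_of_nonneg_left ArithmeticFunction.vonMangoldt_le_log (Nat.cast_nonneg _)
  exact_mod_cast le_of_mul_le_mul_right h3 hl

/-- **`-ζ_K'/ζ_K` as a sum over the places.** -/
theorem hasSum_places {σ : ℝ} (hσ : 1 < σ) :
    HasSum (fun v : HeightOneSpectrum (𝓞 K) => placeWeight σ (absNorm v.asIdeal))
      (-(deriv (dedekindZeta K) (σ : ℂ) / dedekindZeta K (σ : ℂ)).re) := by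
  have hs : 1 < (σ : ℂ).re := by simpa using hσ
  have hone : FA.Hecke.IsRayChar (⊤ : Ideal (𝓞 K)) (1 : Ideal (𝓞 K) →* ℂ) :=
    FA.Hecke.IsRayChar.one
  have h := Complex.hasSum_re (hone.hasSum_negLogDeriv hs)
  have he : FA.Hecke.heckeL (1 : Ideal (𝓞 K) →* ℂ) =ᶠ[𝓝 (σ : ℂ)] dedekindZeta K := by
    filter_upwards [(isOpen_lt continuous_const Complex.continuous_re).mem_nhds hs] with y hy
    exact FA.Hecke.heckeL_one hy
  rw [he.deriv_eq, he.eq_of_nhds, neg_div, neg_re] at h
  refine h.congr_fun fun v => ?_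
  have hq : 1 < absNorm v.asIdeal := NumberField.HeightOneSpectrum.one_lt_absNorm v
  obtain ⟨q, hqd⟩ : ∃ q : ℝ, q = ((absNorm v.asIdeal : ℕ) : ℝ) := ⟨_, rfl⟩
  have hq1 : 1 < q := hqd ▸ Nat.one_lt_cast.2 hq
  have hp : FA.Hecke.fPow (1 : Ideal (𝓞 K) →* ℂ) (σ : ℂ) v = ((q ^ (-σ) : ℝ) : ℂ) := by
    rw [FA.Hecke.fPow, MonoidHom.one_apply, one_mul, FA.PrimeIdeal.primePow,
      ofReal_cpow (by linarith), hqd]
    push_cast
    rfl
  rw [hp, ← ofReal_one, ← ofReal_sub, ← ofReal_div, ← ofReal_mul, ofReal_re, placeWeight, ← hqd,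
    Real.rpow_neg (by linarith)]
  have h0 : 0 < q ^ σ := Real.rpow_pos_of_pos (by linarith) σ
  have h1 : q ^ σ - 1 ≠ 0 := (sub_pos.2 (Real.one_lt_rpow hq1 (by linarith))).ne'
  field_simp

theorem sum_places_le {σ : ℝ} (hσ : 1 < σ) (S : Finset ℕ) :
    ∑ q ∈ S, (placeCount K q : ℝ) * placeWeight σ q ≤
      -(deriv (dedekindZeta K) (σ : ℂ) / dedekindZeta K (σ : ℂ)).re := by
  obtain ⟨T, hT⟩ : ∃ T, T = S.biUnion fun q => (finite_places_norm K q).toFinset := ⟨_, rfl⟩
  refine le_trans (le_of_eq ?_) (sum_le_hasSum T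
    (fun v _ => placeWeight_nonneg (by linarith) _) (hasSum_places K hσ))
  rw [hT, Finset.sum_biUnion]
  · refine Finset.sum_congr rfl fun q _ => ?_
    rw [placeCount, Set.ncard_eq_toFinset_card _ (finite_places_norm K q),
      Finset.sum_eq_card_nsmul (b := placeWeight σ q) fun v hv => ?_, nsmul_eq_mul]
    rw [(Set.Finite.mem_toFinset _).1 hv]
  · intro a _ b _ hab
    refine Finset.disjoint_left.2 fun v ha hb => hab ?_
    have h1 : absNorm v.asIdeal = a := by simpa using ha
    have h2 : absNorm v.asIdeal = b := by simpa using hb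
    exact h1.symm.trans h2

/-- `(log π - ψ (σ/2)) / 2`. -/
def realRate (σ : ℝ) : ℝ := (Real.log π - (Complex.digamma ((σ : ℂ) / 2)).re) / 2

/-- `log 2π - ψ σ`. -/
def complexRate (σ : ℝ) : ℝ := Real.log (2 * π) - (Complex.digamma (σ : ℂ)).re

/-- The left hand side of the basic inequality. -/
def lhsAt (σ : ℝ) (S : Finset ℕ) : ℝ :=
  (∑ q ∈ S, (placeCount K q : ℝ) * placeWeight σ q) +
    (nrRealPlaces K * realRate σ + nrComplexPlaces K * complexRate σ)

/-- **The basic inequality for one field.** -/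
theorem lhsAt_le {σ : ℝ} (hσ : 1 < σ) (S : Finset ℕ) :
    lhsAt K σ S ≤ logGenus K + 1 / σ + 1 / (σ - 1) := by
  have hs : 1 < (σ : ℂ).re := by simpa using hσ
  have h := stark_identity K hs
  have hnn : 0 ≤ discLog K / 2 + ((σ : ℂ)⁻¹).re + (((σ : ℂ) - 1)⁻¹).re +
      (archTerm K (σ : ℂ)).re + (deriv (dedekindZeta K) σ / dedekindZeta K σ).re := by
    refine h.nonneg fun ρ => ?_
    rw [reTerm, inv_re]
    by_cases hm : xiMult K ρ = 0
    · simp [hm]
    · refine mul_nonneg (Nat.cast_nonneg _) (div_nonneg ?_ (normSq_nonneg _))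
      rw [sub_re, ofReal_re]
      linarith [(xi_zero_strip K ((xiMult_ne_zero_iff K).1 hm)).2]
  have e1 : ((σ : ℂ)⁻¹).re = 1 / σ := by rw [← ofReal_inv, ofReal_re, one_div]
  have e2 : (((σ : ℂ) - 1)⁻¹).re = 1 / (σ - 1) := by
    rw [← ofReal_one, ← ofReal_sub, ← ofReal_inv, ofReal_re, one_div]
  have e3 : (archTerm K (σ : ℂ)).re =
      -(nrRealPlaces K * realRate σ + nrComplexPlaces K * complexRate σ) := by
    rw [archTerm, add_re, ← ofReal_natCast, re_ofReal_mul, ← ofReal_natCast, re_ofReal_mul,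
      div_ofNat_re, sub_re, sub_re, ofReal_re, ofReal_re, realRate, complexRate]
    ring
  have hp := sum_places_le K hσ S
  have hD : logGenus K = discLog K / 2 := rfl
  rw [lhsAt, hD]
  linarith

theorem realRate_one :
    realRate 1 = Real.log (2 * √π) + eulerMascheroniConstant / 2 := by
  rw [realRate, ofReal_one, Complex.digamma_one_half, Real.log_mul two_ne_zero
    (Real.sqrt_ne_zero'.2 Real.pi_pos), Real.log_sqrt Real.pi_pos.le,
    show (2 : ℂ) = ((2 : ℝ) : ℂ) by norm_num, ← ofReal_log zero_le_two]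
  simp [Complex.log_re]
  ring

theorem complexRate_one : complexRate 1 = Real.log (2 * π) + eulerMascheroniConstant := by
  rw [complexRate, ofReal_one, Complex.digamma_one]
  simp

theorem rates_one_pos : 0 < realRate 1 ∧ 0 < complexRate 1 := by
  rw [realRate_one, complexRate_one]
  have hγ := Real.one_half_lt_eulerMascheroniConstant
  have h1 : 1 ≤ √π := Real.one_le_sqrt.2 (by linarith [Real.pi_gt_three])
  exact ⟨by linarith [Real.log_nonneg (show 1 ≤ 2 * √π by linarith)],
    by linarith [Real.log_nonneg (show 1 ≤ 2 * π by linarith [Real.pi_gt_three])]⟩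

theorem continuousAt_rates : ContinuousAt realRate 1 ∧ ContinuousAt complexRate 1 := by
  have hd : ∀ z : ℂ, 0 < z.re → ContinuousAt Complex.digamma z := fun z hz => by
    have hU : IsOpen {w : ℂ | 0 < w.re} := isOpen_lt continuous_const continuous_re
    have hD : DifferentiableOn ℂ Complex.Gamma {w : ℂ | 0 < w.re} := fun w hw =>
      (differentiableAt_Gamma w fun m h => by
        have := congrArg Complex.re h
        simp at this
        linarith [(Nat.cast_nonneg m : (0 : ℝ) ≤ m), show 0 < w.re from hw]).differentiableWithinAt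
    have hA := hD.analyticAt (hU.mem_nhds hz)
    exact hA.deriv.continuousAt.div hA.continuousAt (Gamma_ne_zero_of_re_pos hz)
  constructor
  · refine ((continuousAt_const.sub (continuous_re.continuousAt.comp
      (ContinuousAt.comp' (g := Complex.digamma) (hd _ (by simp)) (f := fun σ : ℝ => (σ : ℂ) / 2)
        (by fun_prop)))).div_const 2)
  · exact continuousAt_const.sub (continuous_re.continuousAt.comp
      (ContinuousAt.comp' (g := Complex.digamma) (hd _ (by simp)) (f := fun σ : ℝ => (σ : ℂ))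
        (by fun_prop)))

theorem continuousAt_placeWeight (q : ℕ) : ContinuousAt (fun σ => placeWeight σ q) 1 := by
  rcases Nat.lt_or_ge 1 q with hq | hq
  · have hq1 : (1 : ℝ) < q := Nat.one_lt_cast.2 hq
    exact continuousAt_const.div
      ((Real.continuousAt_const_rpow (by positivity)).sub continuousAt_const)
      (by rw [Real.rpow_one]; linarith)
  · interval_cases q <;> simp [placeWeight, continuousAt_const]

/-- The left hand side at `1`: `log q / (q - 1)` and the rates of Odlyzko. -/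
theorem lhsAt_one (S : Finset ℕ) : lhsAt K 1 S =
    (∑ q ∈ S, (placeCount K q : ℝ) * (Real.log q / ((q : ℝ) - 1))) +
      (nrRealPlaces K * (Real.log (2 * √π) + eulerMascheroniConstant / 2) +
        nrComplexPlaces K * (Real.log (2 * π) + eulerMascheroniConstant)) := by
  simp only [lhsAt, placeWeight, Real.rpow_one, realRate_one, complexRate_one]

end FA.TsfasmanVladut

end
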