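import Fermat.Agent.TsfasmanVladut.Asymptotic

/-!
# Root discriminants when given primes split completely

If `p` splits completely, `N_p = n`, so the inequality adds `2 log p / (p - 1)` to Odlyzko's bound
for `log |d| / n`.
-/

set_option autoImplicit false
set_option linter.style.haveILetI false

noncomputable section

universe u

open NumberField InfinitePlace Module Filter Topology Set
open Real (eulerMascheroniConstant)
open scoped Real Classical

namespace FA.TsfasmanVladut

theorem two_mul_realRate_one :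
    2 * realRate 1 = Real.log (4 * π) + eulerMascheroniConstant := by
  rw [realRate_one, Real.log_mul two_ne_zero (Real.sqrt_ne_zero'.2 Real.pi_pos),
    Real.log_sqrt Real.pi_pos.le, show (4 : ℝ) * π = 2 ^ 2 * π by norm_num,
    Real.log_mul (by norm_num) Real.pi_ne_zero, Real.log_pow]
  push_cast
  ring

/-- **Odlyzko's bound with the split primes.** -/
theorem exists_log_rootDiscr_ge (S : Finset ℕ) {ε : ℝ} (hε : 0 < ε) :
    ∃ N : ℕ, ∀ (K : Type u) [Field K] [NumberField K], N ≤ finrank ℚ K →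
      2 * (∑ q ∈ S, (placeCount K q : ℝ) / finrank ℚ K * (Real.log q / ((q : ℝ) - 1))) +
          (nrRealPlaces K * (Real.log (4 * π) + eulerMascheroniConstant) +
            2 * nrComplexPlaces K * (Real.log (2 * π) + eulerMascheroniConstant)) / finrank ℚ K -
          ε ≤ Real.log (((discr K).natAbs : ℕ) : ℝ) / finrank ℚ K := by
  obtain ⟨N, hN⟩ := exists_lhs_le_add.{u} S (half_pos hε)
  refine ⟨N, fun K _ _ hn => ?_⟩
  have h := hN K hn
  have hn0 : (0 : ℝ) < finrank ℚ K := Nat.cast_pos.2 finrank_pos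
  rw [lhsAt_one, logGenus, ← realRate_one] at h
  rw [← two_mul_realRate_one, le_div_iff₀ hn0]
  simp only [div_mul_eq_mul_div]
  rw [← Finset.sum_div, sub_mul, add_mul, mul_assoc, div_mul_cancel₀ _ hn0.ne',
    div_mul_cancel₀ _ hn0.ne']
  linarith

/-- The same when all of `S` splits completely. -/
theorem exists_log_rootDiscr_ge_split (S : Finset ℕ) {ε : ℝ} (hε : 0 < ε) :
    ∃ N : ℕ, ∀ (K : Type u) [Field K] [NumberField K], N ≤ finrank ℚ K →
      (∀ p ∈ S, placeCount K p = finrank ℚ K) →
      2 * (∑ p ∈ S, Real.log p / ((p : ℝ) - 1)) +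
          (nrRealPlaces K * (Real.log (4 * π) + eulerMascheroniConstant) +
            2 * nrComplexPlaces K * (Real.log (2 * π) + eulerMascheroniConstant)) / finrank ℚ K -
          ε ≤ Real.log (((discr K).natAbs : ℕ) : ℝ) / finrank ℚ K := by
  obtain ⟨N, hN⟩ := exists_log_rootDiscr_ge.{u} S hε
  refine ⟨N, fun K _ _ hn hsp => le_trans (le_of_eq ?_) (hN K hn)⟩
  have hn0 : (finrank ℚ K : ℝ) ≠ 0 := Nat.cast_ne_zero.2 finrank_pos.ne'
  congr 3
  refine Finset.sum_congr rfl fun p hp => ?_
  rw [hsp p hp, div_self hn0, one_mul]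

/-- **Bounded root discriminant limits the primes that split completely.** -/
theorem sum_split_le {c : ℝ} (S : Finset ℕ)
    (h : ∀ B : ℕ, ∃ (K : Type u) (_ : Field K) (_ : NumberField K), B < finrank ℚ K ∧
      (∀ p ∈ S, placeCount K p = finrank ℚ K) ∧
      |((discr K : ℤ) : ℝ)| ^ ((finrank ℚ K : ℝ)⁻¹) ≤ c) :
    2 * (∑ p ∈ S, Real.log p / ((p : ℝ) - 1)) + Real.log (2 * π) + eulerMascheroniConstant ≤
      Real.log c := by
  refine le_of_forall_pos_le_add fun ε hε => ?_
  obtain ⟨N, hN⟩ := exists_log_rootDiscr_ge_split.{u} S hε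
  obtain ⟨K, _, _, hB, hsp, hd⟩ := h N
  have h1 := hN K hB.le hsp
  have hn0 : (0 : ℝ) < finrank ℚ K := Nat.cast_pos.2 finrank_pos
  have hpos : 0 < |((discr K : ℤ) : ℝ)| := abs_pos.2 (Int.cast_ne_zero.2 (discr_ne_zero K))
  have h2 := Real.log_le_log (Real.rpow_pos_of_pos hpos _) hd
  rw [Real.log_rpow hpos, inv_mul_eq_div] at h2
  rw [show (((discr K).natAbs : ℕ) : ℝ) = |((discr K : ℤ) : ℝ)| by
    rw [← Int.cast_abs, ← Int.natCast_natAbs, Int.cast_natCast]] at h1
  have h3 : Real.log (2 * π) + eulerMascheroniConstant ≤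
      (nrRealPlaces K * (Real.log (4 * π) + eulerMascheroniConstant) +
        2 * nrComplexPlaces K * (Real.log (2 * π) + eulerMascheroniConstant)) / finrank ℚ K := by
    rw [le_div_iff₀ hn0, ← degree_split K]
    have h4 : Real.log (2 * π) ≤ Real.log (4 * π) :=
      Real.log_le_log (by positivity) (by linarith [Real.pi_pos])
    nlinarith [mul_le_mul_of_nonneg_left h4 (Nat.cast_nonneg (nrRealPlaces K) : (0 : ℝ) ≤ _)]
  linarith

end FA.TsfasmanVladut

end
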