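import Fermat.Agent.TsfasmanVladut.Finite
import Fermat.Agent.Root.SummaryStarkOdlyzko

/-!
# The asymptotic basic inequality

Letting `σ → 1` in the inequality for one field gives the inequality of Tsfasman and Vlăduţ along
any sequence of fields with `g → ∞` whose ratios `N_q/g`, `r₁/g`, `r₂/g` converge. Every such
sequence has a subsequence with converging ratios.
-/

set_option autoImplicit false
set_option linter.style.haveILetI false

noncomputable section

universe u

open NumberField InfinitePlace Module Filter Topology Set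
open Real (eulerMascheroniConstant)
open scoped Real Classical

namespace FA.TsfasmanVladut

/-- Near `σ = 1` from the right the weights and rates have lost little. -/
theorem exists_good_point (S : Finset ℕ) {ε : ℝ} (hε : 0 < ε) :
    ∃ σ : ℝ, 1 < σ ∧ (∀ q ∈ S, placeWeight 1 q ≤ (1 + ε) * placeWeight σ q) ∧
      realRate 1 ≤ (1 + ε) * realRate σ ∧ complexRate 1 ≤ (1 + ε) * complexRate σ := by
  have key : ∀ {f : ℝ → ℝ}, ContinuousAt f 1 → 0 < f 1 →
      ∀ᶠ σ in 𝓝[>] 1, f 1 ≤ (1 + ε) * f σ := fun {f} hc hp => by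
    have h : f 1 / (1 + ε) < f 1 := div_lt_self hp (by linarith)
    filter_upwards [(hc.eventually (eventually_gt_nhds h)).filter_mono nhdsWithin_le_nhds]
      with σ hσ
    rw [mul_comm]
    exact (div_le_iff₀ (by linarith)).1 hσ.le
  have hw : ∀ q ∈ S, ∀ᶠ σ in 𝓝[>] (1 : ℝ), placeWeight 1 q ≤ (1 + ε) * placeWeight σ q :=
    fun q _ => by
    rcases Nat.lt_or_ge 1 q with hq | hq
    · have hq1 : (1 : ℝ) < q := Nat.one_lt_cast.2 hq
      exact key (continuousAt_placeWeight q) (div_pos (Real.log_pos hq1)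
        (by rw [Real.rpow_one]; linarith))
    · refine Eventually.of_forall fun σ => ?_
      interval_cases q <;> simp [placeWeight]
  obtain ⟨σ, hσ, h1, h2, h3⟩ := (eventually_mem_nhdsWithin.and ((S.eventually_all.2 hw).and
    ((key continuousAt_rates.1 rates_one_pos.1).and
      (key continuousAt_rates.2 rates_one_pos.2)))).exists
  exact ⟨σ, hσ, h1, h2, h3⟩

/-- **The inequality at `σ = 1` up to a factor near `1` and a constant.** -/
theorem exists_lhs_le_mul (S : Finset ℕ) {ε : ℝ} (hε : 0 < ε) :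
    ∃ C : ℝ, 0 ≤ C ∧ ∀ (K : Type u) [Field K] [NumberField K],
      lhsAt K 1 S ≤ (1 + ε) * logGenus K + C := by
  obtain ⟨σ, hσ, hw, hR, hC⟩ := exists_good_point S hε
  have h1 : 0 < σ - 1 := sub_pos.2 hσ
  refine ⟨(1 + ε) * (1 / σ + 1 / (σ - 1)), by positivity, fun K _ _ => ?_⟩
  have h := mul_le_mul_of_nonneg_left (lhsAt_le K hσ S) (show 0 ≤ 1 + ε by linarith)
  refine le_trans (le_trans ?_ h) (le_of_eq (by ring))
  rw [lhsAt, lhsAt, mul_add, mul_add, Finset.mul_sum]
  refine add_le_add (Finset.sum_le_sum fun q hq => ?_) (add_le_add ?_ ?_)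
  · rw [mul_left_comm]
    exact mul_le_mul_of_nonneg_left (hw q hq) (Nat.cast_nonneg _)
  · rw [mul_left_comm]
    exact mul_le_mul_of_nonneg_left hR (Nat.cast_nonneg _)
  · rw [mul_left_comm]
    exact mul_le_mul_of_nonneg_left hC (Nat.cast_nonneg _)

theorem degree_split (K : Type u) [Field K] [NumberField K] :
    (nrRealPlaces K : ℝ) + 2 * nrComplexPlaces K = finrank ℚ K := by
  exact_mod_cast card_add_two_mul_card_eq_rank K

theorem lhsAt_one_le_degree (S : Finset ℕ) (K : Type u) [Field K] [NumberField K] :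
    lhsAt K 1 S ≤ (∑ q ∈ S, placeWeight 1 q + realRate 1 + complexRate 1) * finrank ℚ K := by
  rw [lhsAt, add_mul, add_mul, Finset.sum_mul, add_assoc]
  have hn := degree_split K
  have h0 : (0 : ℝ) ≤ nrRealPlaces K := Nat.cast_nonneg _
  have h1 : (0 : ℝ) ≤ nrComplexPlaces K := Nat.cast_nonneg _
  refine add_le_add (Finset.sum_le_sum fun q _ => ?_) (add_le_add ?_ ?_) <;>
    rw [mul_comm _ (finrank ℚ K : ℝ)]
  · exact mul_le_mul_of_nonneg_right (Nat.cast_le.2 (placeCount_le K q))
      (placeWeight_nonneg zero_le_one q)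
  · exact mul_le_mul_of_nonneg_right (by linarith) rates_one_pos.1.le
  · exact mul_le_mul_of_nonneg_right (by linarith) rates_one_pos.2.le

/-- **The inequality at `σ = 1` for large degree.** -/
theorem exists_lhs_le_add (S : Finset ℕ) {ε : ℝ} (hε : 0 < ε) :
    ∃ N : ℕ, ∀ (K : Type u) [Field K] [NumberField K], N ≤ finrank ℚ K →
      lhsAt K 1 S ≤ logGenus K + ε * finrank ℚ K := by
  obtain ⟨M, hM⟩ : ∃ M, M = ∑ q ∈ S, placeWeight 1 q + realRate 1 + complexRate 1 := ⟨_, rfl⟩
  have hM0 : 0 < M := by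
    have := Finset.sum_nonneg fun q (_ : q ∈ S) => placeWeight_nonneg zero_le_one q
    linarith [rates_one_pos.1, rates_one_pos.2]
  obtain ⟨δ, hδ⟩ : ∃ δ, δ = ε / (2 * M) := ⟨_, rfl⟩
  have hδ0 : 0 < δ := hδ ▸ by positivity
  obtain ⟨C, hC0, hC⟩ := exists_lhs_le_mul.{u} S hδ0
  obtain ⟨N, hN⟩ := exists_nat_ge (2 * C / ε)
  refine ⟨N, fun K _ _ hn => ?_⟩
  have hCn : C ≤ ε / 2 * finrank ℚ K := by
    have h := hN.trans (Nat.cast_le.2 hn)
    rw [div_le_iff₀ hε] at h
    linarith
  have hb := hM ▸ lhsAt_one_le_degree S K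
  have hn0 : (0 : ℝ) ≤ finrank ℚ K := Nat.cast_nonneg _
  have hδM : δ * (M * finrank ℚ K) = ε / 2 * finrank ℚ K := by
    rw [hδ]
    field_simp
  rcases le_or_gt (lhsAt K 1 S) (logGenus K) with h | h
  · nlinarith
  · nlinarith [hC K, mul_le_mul_of_nonneg_left (h.le.trans hb) hδ0.le]

/-- **The degree is bounded by the genus.** -/
theorem exists_degree_le : ∃ A : ℝ, 0 < A ∧ ∀ (K : Type u) [Field K] [NumberField K],
    (finrank ℚ K : ℝ) ≤ A * (logGenus K + 1) := by
  obtain ⟨C, hC0, hC⟩ := exists_lhs_le_mul.{u} ∅ one_pos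
  obtain ⟨m, hm⟩ : ∃ m, m = min (realRate 1) (complexRate 1 / 2) := ⟨_, rfl⟩
  have hm0 : 0 < m := hm ▸ lt_min rates_one_pos.1 (half_pos rates_one_pos.2)
  refine ⟨(2 + C) / m, by positivity, fun K _ _ => ?_⟩
  have h := hC K
  rw [lhsAt, Finset.sum_empty, zero_add] at h
  have h1 := mul_le_mul_of_nonneg_left (hm ▸ min_le_left _ _ : m ≤ realRate 1)
    (Nat.cast_nonneg (nrRealPlaces K) : (0 : ℝ) ≤ _)
  have h2 := mul_le_mul_of_nonneg_left (hm ▸ min_le_right _ _ : m ≤ complexRate 1 / 2)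
    (Nat.cast_nonneg (nrComplexPlaces K) : (0 : ℝ) ≤ _)
  rw [div_mul_eq_mul_div, le_div_iff₀ hm0, ← degree_split K]
  nlinarith [mul_nonneg hC0 (logGenus_nonneg K)]

variable (F : ℕ → Type u) [∀ i, Field (F i)] [∀ i, NumberField (F i)]

/-- Degrees tending to infinity make the genus tend to infinity. -/
theorem tendsto_logGenus_of_degree (h : Tendsto (fun i => finrank ℚ (F i)) atTop atTop) :
    Tendsto (fun i => logGenus (F i)) atTop atTop := by
  obtain ⟨A, hA, hb⟩ := exists_degree_le.{u}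
  refine tendsto_atTop_mono (fun i => ?_)
    (tendsto_atTop_add_const_right _ (-1) ((tendsto_natCast_atTop_atTop.comp h).atTop_div_const hA))
  have := hb (F i)
  rw [Function.comp_apply, ← sub_eq_add_neg, sub_le_iff_le_add, div_le_iff₀ hA, mul_comm]
  exact this

/-- The ratios of a sequence of fields converge. -/
structure RatiosTend (φ : ℕ → ℝ) (φR φC : ℝ) : Prop where
  finite : ∀ q, Tendsto (fun i => (placeCount (F i) q : ℝ) / logGenus (F i)) atTop (𝓝 (φ q))
  real : Tendsto (fun i => (nrRealPlaces (F i) : ℝ) / logGenus (F i)) atTop (𝓝 φR)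
  complex : Tendsto (fun i => (nrComplexPlaces (F i) : ℝ) / logGenus (F i)) atTop (𝓝 φC)

variable {F} {φ : ℕ → ℝ} {φR φC : ℝ}

theorem RatiosTend.nonneg (h : RatiosTend F φ φR φC) (q : ℕ) : 0 ≤ φ q :=
  ge_of_tendsto' (h.finite q) fun _ => div_nonneg (Nat.cast_nonneg _) (logGenus_nonneg _)

/-- The inequality for finitely many norms. -/
theorem RatiosTend.sum_le (h : RatiosTend F φ φR φC)
    (hg : Tendsto (fun i => logGenus (F i)) atTop atTop) (S : Finset ℕ) :
    (∑ q ∈ S, φ q * placeWeight 1 q) + (φR * realRate 1 + φC * complexRate 1) ≤ 1 := by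
  refine le_of_forall_pos_le_add fun ε hε => ?_
  obtain ⟨C, -, hC⟩ := exists_lhs_le_mul.{u} S hε
  have hl : Tendsto (fun i => lhsAt (F i) 1 S / logGenus (F i)) atTop
      (𝓝 ((∑ q ∈ S, φ q * placeWeight 1 q) + (φR * realRate 1 + φC * complexRate 1))) := by
    refine ((tendsto_finsetSum S fun q _ => (h.finite q).mul_const (placeWeight 1 q)).add
      ((h.real.mul_const _).add (h.complex.mul_const _))).congr fun i => ?_
    rw [lhsAt, add_div, add_div, Finset.sum_div]
    simp only [div_mul_eq_mul_div]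
  have hu : Tendsto (fun i => (1 + ε) + C * (logGenus (F i))⁻¹) atTop (𝓝 ((1 + ε) + C * 0)) :=
    ((tendsto_inv_atTop_zero.comp hg).const_mul C).const_add _
  rw [mul_zero, add_zero] at hu
  refine le_of_tendsto_of_tendsto hl hu ?_
  filter_upwards [hg.eventually_gt_atTop 0] with i hi
  rw [div_le_iff₀ hi, add_mul (1 + ε), mul_assoc, inv_mul_cancel₀ hi.ne', mul_one]
  exact hC (F i)

/-- **The inequality of Tsfasman and Vlăduţ.** -/
theorem RatiosTend.basic_inequality (h : RatiosTend F φ φR φC)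
    (hg : Tendsto (fun i => logGenus (F i)) atTop atTop) :
    Summable (fun q => φ q * placeWeight 1 q) ∧
      (∑' q, φ q * placeWeight 1 q) + (φR * realRate 1 + φC * complexRate 1) ≤ 1 := by
  have hnn : ∀ q, 0 ≤ φ q * placeWeight 1 q := fun q =>
    mul_nonneg (h.nonneg q) (placeWeight_nonneg zero_le_one q)
  have hb : ∀ S : Finset ℕ, ∑ q ∈ S, φ q * placeWeight 1 q ≤
      1 - (φR * realRate 1 + φC * complexRate 1) := fun S => by
    linarith [h.sum_le hg S]
  have hs := summable_of_sum_le hnn hb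
  exact ⟨hs, by linarith [hs.tsum_le_of_sum_le hb]⟩

/-- **Every sequence with `g → ∞` has a subsequence with converging ratios.** -/
theorem exists_subseq_ratios (hg : Tendsto (fun i => logGenus (F i)) atTop atTop) :
    ∃ (ψ : ℕ → ℕ) (φ : ℕ → ℝ) (φR φC : ℝ), StrictMono ψ ∧
      RatiosTend (fun i => F (ψ i)) φ φR φC := by
  obtain ⟨A, hA, hb⟩ := exists_degree_le.{u}
  obtain ⟨x, hx⟩ : ∃ x : ℕ → (ℕ ⊕ Bool → ℝ), x = fun i => Sum.elim
      (fun q => (placeCount (F i) q : ℝ) / logGenus (F i))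
      (fun b => (cond b (nrRealPlaces (F i)) (nrComplexPlaces (F i)) : ℕ) / logGenus (F i)) :=
    ⟨_, rfl⟩
  have hbox : ∃ᶠ i in atTop, x i ∈ Set.univ.pi fun _ : ℕ ⊕ Bool => Icc 0 (2 * A) := by
    refine Eventually.frequently ?_
    filter_upwards [hg.eventually_ge_atTop 1] with i hi
    intro j _
    have hn := hb (F i)
    have key : ∀ m : ℕ, m ≤ finrank ℚ (F i) → (m : ℝ) / logGenus (F i) ∈ Icc 0 (2 * A) :=
      fun m hm => by
      refine ⟨div_nonneg (Nat.cast_nonneg _) (by linarith), ?_⟩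
      rw [div_le_iff₀ (by linarith)]
      nlinarith [(Nat.cast_le (α := ℝ)).2 hm]
    have hc := card_add_two_mul_card_eq_rank (F i)
    rw [hx]
    rcases j with q | (_ | _)
    · exact key _ (placeCount_le (F i) q)
    · exact key _ (by simp only [cond_false]; omega)
    · exact key _ (by simp only [cond_true]; omega)
  obtain ⟨a, -, ψ, hψ, hlim⟩ :=
    (isCompact_univ_pi fun _ : ℕ ⊕ Bool => isCompact_Icc).tendsto_subseq' hbox
  rw [tendsto_pi_nhds] at hlim
  refine ⟨ψ, fun q => a (Sum.inl q), a (Sum.inr true), a (Sum.inr false), hψ, fun q => ?_, ?_, ?_⟩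
  · have := hlim (Sum.inl q)
    simp only [hx] at this
    exact this
  · have := hlim (Sum.inr true)
    simp only [hx] at this
    exact this
  · have := hlim (Sum.inr false)
    simp only [hx] at this
    exact this

omit F φ φR φC in
/-- **A sequence of totally real fields with `r₁/g` bounded below exists.** -/
theorem exists_good_sequence :
    ∃ (L : ℕ → IntermediateField ℚ (AlgebraicClosure ℚ)) (_ : ∀ i, NumberField (L i))
      (φ : ℕ → ℝ) (φR φC : ℝ), Tendsto (fun i => logGenus (L i)) atTop atTop ∧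
        RatiosTend (fun i => L i) φ φR φC ∧ 0 < φR := by
  obtain ⟨⟨c, hc⟩, hge⟩ := FA.Summary.bounded_rootDiscriminant_ge
  have hc1 : 1 < c := by
    refine lt_of_lt_of_le ?_ (hge c hc)
    have h1 : (1 : ℝ) ≤ Real.exp eulerMascheroniConstant := Real.one_le_exp
      (by linarith [Real.one_half_lt_eulerMascheroniConstant])
    nlinarith [Real.pi_gt_three, mul_le_mul_of_nonneg_left h1 (show (0 : ℝ) ≤ 4 * π by positivity)]
  choose L hL hreal hdeg hrd using hc
  haveI := hL
  have hn : Tendsto (fun i => finrank ℚ (L i)) atTop atTop :=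
    tendsto_atTop_mono (fun i => (hdeg i).le) tendsto_id
  have hg := tendsto_logGenus_of_degree (fun i => L i) hn
  obtain ⟨ψ, φ, φR, φC, hψ, hr⟩ := exists_subseq_ratios hg
  refine ⟨fun i => L (ψ i), fun i => hL (ψ i), φ, φR, φC, hg.comp hψ.tendsto_atTop, hr, ?_⟩
  refine lt_of_lt_of_le (div_pos two_pos (Real.log_pos hc1)) (ge_of_tendsto hr.real ?_)
  filter_upwards [(hg.comp hψ.tendsto_atTop).eventually_gt_atTop 0] with i hi
  simp only [Function.comp_apply] at hi
  haveI := hreal (ψ i)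
  have h1 : (nrRealPlaces (L (ψ i)) : ℝ) = finrank ℚ (L (ψ i)) := by
    rw [← degree_split, IsTotallyReal.nrComplexPlaces_eq_zero (L (ψ i))]
    simp
  have hd : (0 : ℝ) < finrank ℚ (L (ψ i)) := Nat.cast_pos.2 finrank_pos
  have h2 : 2 * logGenus (L (ψ i)) ≤ Real.log c * finrank ℚ (L (ψ i)) := by
    have hpos : 0 < |((discr (L (ψ i)) : ℤ) : ℝ)| :=
      abs_pos.2 (Int.cast_ne_zero.2 (discr_ne_zero _))
    have h := Real.log_le_log (Real.rpow_pos_of_pos hpos _) (hrd (ψ i))
    rw [Real.log_rpow hpos, inv_mul_le_iff₀ hd] at h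
    rw [logGenus, show (((discr (L (ψ i))).natAbs : ℕ) : ℝ) = |((discr (L (ψ i)) : ℤ) : ℝ)| by
      rw [← Int.cast_abs, ← Int.natCast_natAbs, Int.cast_natCast]]
    linarith
  rw [h1, div_le_div_iff₀ (Real.log_pos hc1) hi]
  linarith

end FA.TsfasmanVladut

end
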